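/-
T1B / brick OMEGA-GAUSS (Ω1), generic core (helper3): INJECTIVITY OF THE BASE-CHANGED EXPANSION.

`K ⊂ L` fields, `B` a commutative `K`-algebra with an INJECTIVE ring hom `e : B →+* K((q))` which is
the identity on constants (`e (algebraMap K B c) = C c`).  Then

  `tensorExp e he : L ⊗[K] B →+* L((q))`,  `l ⊗ b ↦ C l * coeffMap (K → L) (e b)`

is injective (`tensorExp_injective`: coefficientwise linear disjointness of `L` and `K((q))` over `K`),
hence `L ⊗[K] B` is a domain (`isDomain_tensor_of_exp`).  (`B` a field: `Omega/Base.lean`.)
-/
import Mathlib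
import Fermat.Prelude.Def_ModularCurve_LaurentCoeff

set_option autoImplicit false
set_option linter.unusedSectionVars false

noncomputable section

namespace Fermat.Agent.T1B.Hecke3.Omega

open HahnSeries ModularCurve TensorProduct

variable {K L B : Type*} [Field K] [Field L] [CommRing B] [Algebra K L] [Algebra K B]
  (e : B →+* LaurentSeries K) (he : ∀ c : K, e (algebraMap K B c) = HahnSeries.C c)

/-- The `K`-algebra structure `c ↦ C (c : L)` on `L((q))` (local, to avoid instance clashes). -/
@[reducible] def algKL : Algebra K (LaurentSeries L) :=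
  ((HahnSeries.C : L →+* LaurentSeries L).comp (algebraMap K L)).toAlgebra

/-- **The base-changed expansion on `L ⊗[K] B`**: `l ⊗ b ↦ C l * coeffMap (K → L) (e b)`. -/
def tensorExp : L ⊗[K] B →+* LaurentSeries L :=
  letI : Algebra K (LaurentSeries L) := algKL
  let cK : L →ₐ[K] LaurentSeries L :=
    { (HahnSeries.C : L →+* LaurentSeries L) with commutes' := fun _ => rfl }
  let eK : B →ₐ[K] LaurentSeries L :=
    { (coeffMap (algebraMap K L)).comp e with
      commutes' := fun c => by
        show coeffMap (algebraMap K L) (e (algebraMap K B c)) = HahnSeries.C (algebraMap K L c)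
        rw [he]
        exact coeffMap_single (algebraMap K L) 0 c }
  (Algebra.TensorProduct.productMap cK eK).toRingHom

@[simp] theorem tensorExp_tmul (l : L) (b : B) :
    tensorExp e he (l ⊗ₜ[K] b) = HahnSeries.C l * coeffMap (algebraMap K L) (e b) := by
  let _ : Algebra K (LaurentSeries L) := algKL
  unfold tensorExp
  exact Algebra.TensorProduct.productMap_apply_tmul _ _ l b

/-- **`tensorExp` is injective** when `e` is. -/
theorem tensorExp_injective (hinj : Function.Injective e) :
    Function.Injective (tensorExp (L := L) e he) := by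
  rw [injective_iff_map_eq_zero]
  intro t ht
  classical
  set b := Module.Basis.ofVectorSpace K L with hb
  obtain ⟨c, rfl⟩ := TensorProduct.eq_repr_basis_left b t
  have hc : ∀ i, c i = 0 := by
    intro i
    apply hinj
    rw [map_zero]
    ext n
    rw [HahnSeries.coeff_zero]
    have hn : (tensorExp (L := L) e he (c.sum fun i f => b i ⊗ₜ[K] f)).coeff n = 0 := by
      rw [ht, HahnSeries.coeff_zero]
    rw [Finsupp.sum, map_sum] at hn
    have hsum : (∑ j ∈ c.support, tensorExp (L := L) e he (b j ⊗ₜ[K] c j)).coeff n =
        ∑ j ∈ c.support, (e (c j)).coeff n • b j := by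
      have h1 : (∑ j ∈ c.support, tensorExp (L := L) e he (b j ⊗ₜ[K] c j)).coeff n =
          ∑ j ∈ c.support, (tensorExp (L := L) e he (b j ⊗ₜ[K] c j)).coeff n := by
        induction c.support using Finset.induction_on with
        | empty => simp
        | insert a s ha ih =>
          rw [Finset.sum_insert ha, Finset.sum_insert ha, HahnSeries.coeff_add, ih]
      rw [h1]
      refine Finset.sum_congr rfl fun j _ => ?_
      rw [tensorExp_tmul, HahnSeries.C_mul_eq_smul, HahnSeries.coeff_smul, coeffMap_coeff,
        smul_eq_mul, Algebra.smul_def, mul_comm]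
    rw [hsum] at hn
    have hlin := b.linearIndependent
    rw [linearIndependent_iff'] at hlin
    by_cases hi : i ∈ c.support
    · exact hlin c.support (fun j => (e (c j)).coeff n) hn i hi
    · rw [Finsupp.notMem_support_iff.mp hi, map_zero, HahnSeries.coeff_zero]
  have : c = 0 := Finsupp.ext hc
  rw [this, Finsupp.sum_zero_index]

include e he in
/-- `L ⊗[K] B` is a domain as soon as `B` has ONE injective expansion. -/
theorem isDomain_tensor_of_exp (hinj : Function.Injective e) : IsDomain (L ⊗[K] B) :=
  (tensorExp_injective (L := L) e he hinj).isDomain (tensorExp (L := L) e he)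

/-- Subalgebra form: for a `K`-subalgebra `S` of a `K`-algebra `F` with an injective expansion,
`L ⊗[K] S` is a domain. -/
theorem isDomain_tensor_subalgebra {F : Type*} [CommRing F] [Algebra K F]
    (eF : F →+* LaurentSeries K) (heF : ∀ c : K, eF (algebraMap K F c) = HahnSeries.C c)
    (hinj : Function.Injective eF) (S : Subalgebra K F) : IsDomain (L ⊗[K] S) :=
  isDomain_tensor_of_exp (L := L) (eF.comp S.val.toRingHom) (fun c => heF c)
    (hinj.comp Subtype.val_injective)

end Fermat.Agent.T1B.Hecke3.Omega
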