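/-
T1B / F8 HECKE-N (brick 528, helper3), brick OMEGA-GAUSS, part (Ω1): BASE CHANGE OF AN EXPANSION.

`K ⊂ Ω` fields, `F / K` a field with an expansion `e : F →+* K((q))`, `e (const c) = C c`.

* `embT e he : Ω ⊗[K] F →+* Ω((q))`, `c ⊗ f ↦ C c * coeffMap (K → Ω) (e f)`;
* `embT_injective` : it is injective (coefficientwise linear disjointness of `Ω` and `K((q))` over
  `K`); hence `Ω ⊗[K] F` is a domain (`isDomain_tensor`);
* `FΩ K Ω F := FractionRing (Ω ⊗[K] F)` (needs `[IsDomain (Ω ⊗[K] F)]`), `βΩ : F →+* FΩ`,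
  `constΩ : Ω →+* FΩ`, and for EVERY expansion `e`:  `eΩ e he : FΩ K Ω F →+* Ω((q))` with
  `eΩ_beta : eΩ (βΩ f) = coeffMap (K → Ω) (e f)`, `eΩ_const : eΩ (constΩ c) = C c`.
Different expansions `e₁, e₂` of the same `F` live on the SAME field `FΩ K Ω F`.
-/
import Mathlib
import Fermat.Prelude.Def_ModularCurve_LaurentCoeff

set_option autoImplicit false
set_option linter.unusedSectionVars false

noncomputable section

namespace Fermat.Agent.T1B.Hecke3.Omega

open HahnSeries ModularCurve TensorProduct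

variable {K Ω F : Type*} [Field K] [Field Ω] [Field F] [Algebra K Ω] [Algebra K F]

/-- `coeffMap` of a constant. -/
theorem coeffMap_C_aux {R S : Type*} [CommRing R] [CommRing S] (φ : R →+* S) (r : R) :
    coeffMap φ (HahnSeries.C r : LaurentSeries R) = HahnSeries.C (φ r) :=
  coeffMap_single φ 0 r

section Emb

variable (e : F →+* LaurentSeries K) (he : ∀ c : K, e (algebraMap K F c) = HahnSeries.C c)

/-- The `K`-algebra structure `c ↦ C (c : Ω)` on `Ω((q))` (local, to avoid instance clashes). -/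
@[reducible] def algKΩ : Algebra K (LaurentSeries Ω) :=
  ((HahnSeries.C : Ω →+* LaurentSeries Ω).comp (algebraMap K Ω)).toAlgebra

/-- **The base-changed expansion on `Ω ⊗[K] F`**: `c ⊗ f ↦ C c * coeffMap (K → Ω) (e f)`. -/
def embT : Ω ⊗[K] F →+* LaurentSeries Ω :=
  letI : Algebra K (LaurentSeries Ω) := algKΩ
  let cK : Ω →ₐ[K] LaurentSeries Ω :=
    { (HahnSeries.C : Ω →+* LaurentSeries Ω) with commutes' := fun _ => rfl }
  let eK : F →ₐ[K] LaurentSeries Ω :=
    { (coeffMap (algebraMap K Ω)).comp e with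
      commutes' := fun c => by
        show coeffMap (algebraMap K Ω) (e (algebraMap K F c)) = HahnSeries.C (algebraMap K Ω c)
        rw [he, coeffMap_C_aux] }
  (Algebra.TensorProduct.productMap cK eK).toRingHom

@[simp] theorem embT_tmul (c : Ω) (f : F) :
    embT e he (c ⊗ₜ[K] f) = HahnSeries.C c * coeffMap (algebraMap K Ω) (e f) := by
  let _ : Algebra K (LaurentSeries Ω) := algKΩ
  unfold embT
  exact Algebra.TensorProduct.productMap_apply_tmul _ _ c f

/-- **`embT` is injective.** -/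
theorem embT_injective : Function.Injective (embT (Ω := Ω) e he) := by
  rw [injective_iff_map_eq_zero]
  intro t ht
  classical
  set b := Module.Basis.ofVectorSpace K Ω with hb
  obtain ⟨c, rfl⟩ := TensorProduct.eq_repr_basis_left b t
  -- all coordinates vanish
  have hc : ∀ i, c i = 0 := by
    intro i
    have hinj : Function.Injective e := e.injective
    apply hinj
    rw [map_zero]
    ext n
    rw [HahnSeries.coeff_zero]
    -- the `n`-th coefficient of the image
    have hn : (embT (Ω := Ω) e he (c.sum fun i f => b i ⊗ₜ[K] f)).coeff n = 0 := by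
      rw [ht, HahnSeries.coeff_zero]
    rw [Finsupp.sum, map_sum] at hn
    have hcoeff : ∀ x : LaurentSeries Ω, x.coeff n = HahnSeries.coeff x n := fun _ => rfl
    have hsum : (∑ j ∈ c.support, embT (Ω := Ω) e he (b j ⊗ₜ[K] c j)).coeff n =
        ∑ j ∈ c.support, (e (c j)).coeff n • b j := by
      have h1 : (∑ j ∈ c.support, embT (Ω := Ω) e he (b j ⊗ₜ[K] c j)).coeff n =
          ∑ j ∈ c.support, (embT (Ω := Ω) e he (b j ⊗ₜ[K] c j)).coeff n := by
        induction c.support using Finset.induction_on with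
        | empty => simp
        | insert a s ha ih =>
          rw [Finset.sum_insert ha, Finset.sum_insert ha, HahnSeries.coeff_add, ih]
      rw [h1]
      refine Finset.sum_congr rfl fun j _ => ?_
      rw [embT_tmul, HahnSeries.C_mul_eq_smul, HahnSeries.coeff_smul, coeffMap_coeff,
        smul_eq_mul, Algebra.smul_def, mul_comm]
    rw [hsum] at hn
    have hlin := b.linearIndependent
    rw [linearIndependent_iff'] at hlin
    by_cases hi : i ∈ c.support
    · exact hlin c.support (fun j => (e (c j)).coeff n) hn i hi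
    · rw [Finsupp.notMem_support_iff.mp hi, map_zero, HahnSeries.coeff_zero]
  have : c = 0 := Finsupp.ext hc
  rw [this, Finsupp.sum_zero_index]

include e he in
/-- `Ω ⊗[K] F` is a domain as soon as `F` has ONE expansion. -/
theorem isDomain_tensor : IsDomain (Ω ⊗[K] F) :=
  (embT_injective (Ω := Ω) e he).isDomain (embT (Ω := Ω) e he)

end Emb

/-! ### the field `FΩ` and the expansions on it -/

section Field

variable (K Ω F)
variable [IsDomain (Ω ⊗[K] F)]

/-- **The function field over `Ω`.** -/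
abbrev FΩ : Type _ := FractionRing (Ω ⊗[K] F)

/-- `F → FΩ`, `f ↦ 1 ⊗ f`. -/
def βΩ : F →+* FΩ K Ω F :=
  (algebraMap (Ω ⊗[K] F) (FΩ K Ω F)).comp
    (Algebra.TensorProduct.includeRight : F →ₐ[K] Ω ⊗[K] F).toRingHom

/-- `Ω → FΩ`, `c ↦ c ⊗ 1`. -/
def constΩ : Ω →+* FΩ K Ω F :=
  (algebraMap (Ω ⊗[K] F) (FΩ K Ω F)).comp
    (Algebra.TensorProduct.includeLeft : Ω →ₐ[K] Ω ⊗[K] F).toRingHom

variable {K Ω F}

theorem βΩ_apply (f : F) :
    βΩ K Ω F f = algebraMap (Ω ⊗[K] F) (FΩ K Ω F) ((1 : Ω) ⊗ₜ[K] f) := rfl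

theorem constΩ_apply (c : Ω) :
    constΩ K Ω F c = algebraMap (Ω ⊗[K] F) (FΩ K Ω F) (c ⊗ₜ[K] (1 : F)) := rfl

/-- the two structure maps agree on `K`. -/
theorem βΩ_algebraMap (c : K) : βΩ K Ω F (algebraMap K F c) = constΩ K Ω F (algebraMap K Ω c) := by
  rw [βΩ_apply, constΩ_apply]
  congr 1
  rw [Algebra.algebraMap_eq_smul_one, Algebra.algebraMap_eq_smul_one, TensorProduct.tmul_smul,
    TensorProduct.smul_tmul']

variable (e : F →+* LaurentSeries K) (he : ∀ c : K, e (algebraMap K F c) = HahnSeries.C c)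

/-- **The expansion `e` base-changed to `FΩ`.** -/
def eΩ : FΩ K Ω F →+* LaurentSeries Ω :=
  IsFractionRing.lift (A := Ω ⊗[K] F) (K := FΩ K Ω F) (g := embT (Ω := Ω) e he)
    (embT_injective (Ω := Ω) e he)

theorem eΩ_algebraMap (t : Ω ⊗[K] F) :
    eΩ e he (algebraMap (Ω ⊗[K] F) (FΩ K Ω F) t) = embT (Ω := Ω) e he t :=
  IsFractionRing.lift_algebraMap _ t

/-- `eΩ (β f) = coeffMap (K → Ω) (e f)`. -/
theorem eΩ_beta (f : F) : eΩ (Ω := Ω) e he (βΩ K Ω F f) = coeffMap (algebraMap K Ω) (e f) := by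
  rw [βΩ_apply, eΩ_algebraMap, embT_tmul, map_one, one_mul]

/-- `eΩ (const c) = C c`. -/
theorem eΩ_const (c : Ω) : eΩ (F := F) e he (constΩ K Ω F c) = HahnSeries.C c := by
  rw [constΩ_apply, eΩ_algebraMap, embT_tmul, map_one, map_one, mul_one]

/-- every element of `FΩ` is a quotient of two elements of `Ω ⊗[K] F`. -/
theorem exists_div (z : FΩ K Ω F) : ∃ n s : Ω ⊗[K] F, s ≠ 0 ∧
    z = algebraMap (Ω ⊗[K] F) (FΩ K Ω F) n / algebraMap (Ω ⊗[K] F) (FΩ K Ω F) s := by
  obtain ⟨n, s, hs, rfl⟩ := IsFractionRing.div_surjective (A := Ω ⊗[K] F) z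
  exact ⟨n, s, nonZeroDivisors.ne_zero hs, rfl⟩

/-- the `Ω`-algebra structure of `FΩ` is `constΩ`. -/
theorem algebraMap_eq_constΩ (c : Ω) : algebraMap Ω (FΩ K Ω F) c = constΩ K Ω F c := by
  rw [constΩ_apply, IsScalarTower.algebraMap_apply Ω (Ω ⊗[K] F) (FΩ K Ω F)]
  rfl

/-- `eΩ` on the `Ω`-algebra constants. -/
theorem eΩ_algebraMap_const (c : Ω) :
    eΩ (F := F) e he (algebraMap Ω (FΩ K Ω F) c) = HahnSeries.C c := by
  rw [algebraMap_eq_constΩ, eΩ_const]

end Field

end Fermat.Agent.T1B.Hecke3.Omega
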