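/-
T1B / F8 HECKE-N (brick 528, helper3), brick OMEGA-GAUSS, part (Ω3): BASE CHANGE OF `dl`.

`φ : K →+* L` a field embedding, `B` a valuation subring of `L`, `A := B.comap φ` (so `A = B ∩ K`).

* `ringA φ B : ↥(B.comap φ) →+* ↥B` (local), `resMap φ B : Kap (B.comap φ) →+* Kap B`;
* `isNormRep_baseChange`, `normalisable_baseChange` : normalised representations are transported by
  `coeffMap φ`;
* **`dl_baseChange`** : `dl B (coeffMap φ f) = coeffMap (resMap φ B) (dl (B.comap φ) f)` for
  normalisable `f`; `dl_baseChange_eq_zero_iff`;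
* with `Omega/Base`: `dl_eΩ_beta` : `dl B (eΩ e he (βΩ f)) = coeffMap (resMap _ B) (dl A (e f))`.
-/
import Mathlib
import Fermat.Agent.T1B.Hecke3.DlAbs
import Fermat.Agent.T1B.Hecke3.Omega.Base

set_option autoImplicit false
set_option linter.unusedSectionVars false

noncomputable section

namespace Fermat.Agent.T1B.Hecke3.Omega

open HahnSeries ModularCurve Fermat.Agent.T1B.Hecke3 Fermat.Agent.IG.PR.Theta20

variable {K L : Type*} [Field K] [Field L] (φ : K →+* L) (B : ValuationSubring L)

/-- `A = B ∩ K → B`. -/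
def ringA : ↥(B.comap φ) →+* ↥B := φ.restrict (B.comap φ) B (fun _ hx => hx)

@[simp] theorem coe_ringA (x : ↥(B.comap φ)) : ((ringA φ B x : ↥B) : L) = φ (x : K) := rfl

instance isLocalHom_ringA : IsLocalHom (ringA φ B) := by
  constructor
  intro x hx
  obtain ⟨y, hy⟩ := isUnit_iff_exists_inv.mp hx
  have h1 : φ (x : K) * (y : L) = 1 := congrArg (fun z : ↥B => (z : L)) hy
  have hx0 : (x : K) ≠ 0 := by
    intro h0
    rw [h0, map_zero, zero_mul] at h1
    exact zero_ne_one h1
  have h2 : φ ((x : K)⁻¹) = (y : L) := by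
    rw [map_inv₀]
    exact inv_eq_of_mul_eq_one_right h1
  have h4 : (x : K)⁻¹ ∈ B.comap φ := by
    rw [ValuationSubring.mem_comap, h2]; exact y.2
  refine isUnit_iff_exists_inv.mpr ⟨⟨(x : K)⁻¹, h4⟩, ?_⟩
  apply Subtype.ext
  show (x : K) * (x : K)⁻¹ = 1
  exact mul_inv_cancel₀ hx0

/-- The induced map of residue fields `κ(B ∩ K) → κ(B)`. -/
def resMap : Kap (B.comap φ) →+* Kap B := IsLocalRing.ResidueField.map (ringA φ B)

theorem resMap_injective : Function.Injective (resMap φ B) := (resMap φ B).injective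

theorem residue_ringA (x : ↥(B.comap φ)) :
    IsLocalRing.residue ↥B (ringA φ B x) = resMap φ B (IsLocalRing.residue ↥(B.comap φ) x) :=
  (IsLocalRing.ResidueField.map_residue (ringA φ B) x).symm

theorem redA_ringA (x : LaurentSeries ↥(B.comap φ)) :
    redA B (coeffMap (ringA φ B) x) = coeffMap (resMap φ B) (redA (B.comap φ) x) := by
  ext n
  rw [coeffMap_coeff, coeffMap_coeff, coeffMap_coeff, coeffMap_coeff, residue_ringA]

theorem embA_ringA (x : LaurentSeries ↥(B.comap φ)) :
    embA B (coeffMap (ringA φ B) x) = coeffMap φ (embA (B.comap φ) x) := by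
  ext n
  rw [coeffMap_coeff, coeffMap_coeff, coeffMap_coeff, coeffMap_coeff]
  rfl

theorem coeffMap_resMap_injective : Function.Injective (coeffMap (resMap φ B)) :=
  coeffMap_injective' (resMap_injective φ B)

variable {φ B}

/-- Normalised representations are transported by `coeffMap φ`. -/
theorem isNormRep_baseChange {f : LaurentSeries K} {c : K} {a s : LaurentSeries ↥(B.comap φ)}
    (h : IsNormRep (B.comap φ) f c a s) :
    IsNormRep B (coeffMap φ f) (φ c) (coeffMap (ringA φ B) a) (coeffMap (ringA φ B) s) := by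
  obtain ⟨hc, ha, hs, he⟩ := h
  refine ⟨(map_ne_zero φ).mpr hc, ?_, ?_, ?_⟩
  · rw [redA_ringA]
    exact fun h0 => ha (coeffMap_resMap_injective φ B (by rw [h0, map_zero]))
  · rw [redA_ringA]
    exact fun h0 => hs (coeffMap_resMap_injective φ B (by rw [h0, map_zero]))
  · rw [embA_ringA, embA_ringA, ← he, map_mul, map_mul, coeffMap_C']

theorem normalisable_baseChange {f : LaurentSeries K} (h : Normalisable (B.comap φ) f) :
    Normalisable B (coeffMap φ f) := by
  obtain ⟨c, a, s, h⟩ := h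
  exact ⟨_, _, _, isNormRep_baseChange h⟩

/-- `dlog` commutes with coefficient maps of fields. -/
theorem dlog_coeffMap' {k k' : Type*} [Field k] [Field k'] (ψ : k →+* k') (g : LaurentSeries k) :
    dlog (coeffMap ψ g) = coeffMap ψ (dlog g) := by
  unfold dlog
  rw [map_mul, map_inv₀, coeffMap_theta]

/-- **Base change of `dl`.** -/
theorem dl_baseChange {f : LaurentSeries K} (h : Normalisable (B.comap φ) f) :
    dl B (coeffMap φ f) = coeffMap (resMap φ B) (dl (B.comap φ) f) := by
  obtain ⟨c, a, s, h⟩ := h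
  rw [dl_eq_of_rep (isNormRep_baseChange h), dl_eq_of_rep h, redA_ringA, redA_ringA, dlog_coeffMap',
    dlog_coeffMap', map_sub]

theorem dl_baseChange_eq_zero_iff {f : LaurentSeries K} (h : Normalisable (B.comap φ) f) :
    dl B (coeffMap φ f) = 0 ↔ dl (B.comap φ) f = 0 := by
  rw [dl_baseChange h]
  exact map_eq_zero_iff _ (coeffMap_resMap_injective φ B)

/-! ### with `Omega/Base` -/

section Omega

open TensorProduct

variable {K₀ Ω F : Type*} [Field K₀] [Field Ω] [Field F] [Algebra K₀ Ω] [Algebra K₀ F]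
  [IsDomain (Ω ⊗[K₀] F)] (V : ValuationSubring Ω)
  (e : F →+* LaurentSeries K₀) (he : ∀ c : K₀, e (algebraMap K₀ F c) = HahnSeries.C c)

/-- **`dl` of the base-changed expansion of a function of `F`.** -/
theorem dl_eΩ_beta {f : F} (h : Normalisable (V.comap (algebraMap K₀ Ω)) (e f)) :
    dl V (eΩ (Ω := Ω) e he (βΩ K₀ Ω F f)) =
      coeffMap (resMap (algebraMap K₀ Ω) V) (dl (V.comap (algebraMap K₀ Ω)) (e f)) := by
  rw [eΩ_beta, dl_baseChange h]

theorem normalisable_eΩ_beta {f : F} (h : Normalisable (V.comap (algebraMap K₀ Ω)) (e f)) :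
    Normalisable V (eΩ (Ω := Ω) e he (βΩ K₀ Ω F f)) := by
  rw [eΩ_beta]
  exact normalisable_baseChange h

theorem dl_eΩ_beta_eq_zero_iff {f : F} (h : Normalisable (V.comap (algebraMap K₀ Ω)) (e f)) :
    dl V (eΩ (Ω := Ω) e he (βΩ K₀ Ω F f)) = 0 ↔ dl (V.comap (algebraMap K₀ Ω)) (e f) = 0 := by
  rw [eΩ_beta]
  exact dl_baseChange_eq_zero_iff h

end Omega

end Fermat.Agent.T1B.Hecke3.Omega
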